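import Mathlib

/-!
# An integration weight for finite index subgroups of `SL(2, ℤ)`

`weight Γ` is a nonnegative measurable function on the upper half plane of finite integral whose
`Γ`-translates add up to one. Integrating against it replaces a fundamental domain.
-/

set_option autoImplicit false

noncomputable section

open scoped MatrixGroups Modular ENNReal NNReal
open UpperHalfPlane MeasureTheory

namespace FermatAgent.RTLift.Petersson

instance : Countable SL(2, ℤ) := by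
  have : Countable (Matrix (Fin 2) (Fin 2) ℤ) := inferInstanceAs (Countable (Fin 2 → Fin 2 → ℤ))
  exact Subtype.countable

instance (Γ : Subgroup SL(2, ℤ)) : Countable (SL(2, ℤ) ⧸ Γ) :=
  Quotient.mk_surjective.countable

/-- Number of points (with multiplicity) of the orbit of `z` in the standard domain. -/
def orbitCount (z : ℍ) : ℝ≥0∞ :=
  ∑' γ : SL(2, ℤ), Set.indicator (𝒟 : Set ℍ) (fun _ ↦ (1 : ℝ≥0∞)) (γ • z)

theorem smul_eq_mapGL (γ : SL(2, ℤ)) (z : ℍ) :
    γ • z = (Matrix.SpecialLinearGroup.mapGL ℝ γ) • z := rfl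

theorem finite_smul_mem_fd (z : ℍ) : {γ : SL(2, ℤ) | γ • z ∈ 𝒟}.Finite := by
  obtain ⟨g, hg⟩ := ModularGroup.exists_max_im z
  set K := ModularGroup.truncatedFundamentalDomain (g • z).im
  have h := ProperlyDiscontinuousSMul.finite_disjoint_inter_image (Γ := 𝒮ℒ) (T := ℍ)
    (isCompact_singleton (x := z)) (ModularGroup.isCompact_truncatedFundamentalDomain (g • z).im)
  let φ : SL(2, ℤ) → 𝒮ℒ := fun γ ↦ ⟨Matrix.SpecialLinearGroup.mapGL ℝ γ, γ, rfl⟩
  have hφ : Function.Injective φ := fun a b hab ↦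
    Matrix.SpecialLinearGroup.mapGL_injective (Subtype.ext_iff.1 hab)
  refine (h.preimage hφ.injOn).subset fun γ hγ ↦ ?_
  exact ⟨γ • z, ⟨z, Set.mem_singleton z, rfl⟩, hγ, hg γ⟩

theorem orbitCount_ne_top (z : ℍ) : orbitCount z ≠ ⊤ := by
  rw [orbitCount, tsum_eq_sum (s := (finite_smul_mem_fd z).toFinset) fun γ hγ ↦ ?_]
  · exact ENNReal.sum_ne_top.2 fun γ _ ↦
      ne_top_of_le_ne_top ENNReal.one_ne_top (Set.indicator_le_self _ _ _)
  · exact Set.indicator_of_notMem (by simpa using hγ) _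

theorem orbitCount_ne_zero (z : ℍ) : orbitCount z ≠ 0 := by
  obtain ⟨g, hg⟩ := ModularGroup.exists_smul_mem_fd z
  intro h
  simp [orbitCount, ENNReal.tsum_eq_zero] at h
  exact h g hg

theorem orbitCount_smul (γ : SL(2, ℤ)) (z : ℍ) : orbitCount (γ • z) = orbitCount z := by
  simp only [orbitCount, ← mul_smul]
  exact (Equiv.mulRight γ).tsum_eq
    (fun δ ↦ Set.indicator (𝒟 : Set ℍ) (fun _ ↦ (1 : ℝ≥0∞)) (δ • z))

theorem measurable_smul_sl (γ : SL(2, ℤ)) : Measurable fun z : ℍ ↦ γ • z :=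
  (continuous_const_smul (Matrix.SpecialLinearGroup.mapGL ℝ γ)).measurable

theorem measurableSet_fd : MeasurableSet (𝒟 : Set ℍ) :=
  ModularGroup.isClosed_fd.measurableSet

theorem measurable_orbitCount : Measurable orbitCount :=
  Measurable.tsum fun γ ↦
    (measurable_const.indicator measurableSet_fd).comp (measurable_smul_sl γ)

/-- The level one weight. -/
def weight₁ (z : ℍ) : ℝ≥0∞ := Set.indicator (𝒟 : Set ℍ) (fun _ ↦ 1) z / orbitCount z

theorem measurable_weight₁ : Measurable weight₁ :=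
  (measurable_const.indicator measurableSet_fd).div measurable_orbitCount

theorem tsum_weight₁ (z : ℍ) : ∑' γ : SL(2, ℤ), weight₁ (γ • z) = 1 := by
  simp only [weight₁, orbitCount_smul, div_eq_mul_inv, ENNReal.tsum_mul_right]
  exact ENNReal.mul_inv_cancel (orbitCount_ne_zero z) (orbitCount_ne_top z)

theorem lintegral_indicator_fd_ne_top :
    ∫⁻ z, Set.indicator (𝒟 : Set ℍ) (fun _ ↦ (1 : ℝ≥0∞)) z ≠ ⊤ := by
  rw [lintegral_indicator_const measurableSet_fd, one_mul, volume_eq_lintegral]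
  refine ne_top_of_le_ne_top ?_ (lintegral_mono_set (t := {w : ℂ | w.re ∈ Set.Icc (-(1 : ℝ)) 1 ∧
    w.im ∈ Set.Ioi (1 / 4 : ℝ)}) ?_)
  · set s := Set.Icc (-(1 : ℝ)) 1 ×ˢ Set.Ioi (1 / 4 : ℝ) with hs
    have e : {w : ℂ | w.re ∈ Set.Icc (-(1 : ℝ)) 1 ∧ w.im ∈ Set.Ioi (1 / 4 : ℝ)} =
        Complex.measurableEquivRealProd ⁻¹' s := by
      ext w; simp [hs]
    rw [e]
    refine ne_of_eq_of_ne (Complex.volume_preserving_equiv_real_prod.setLIntegral_comp_preimage_emb
      (Complex.measurableEquivRealProd.measurableEmbedding)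
      (fun p ↦ ((((1 / ‖p.2‖₊) ^ 2 : ℝ≥0)) : ℝ≥0∞)) s) ?_
    rw [show (volume : Measure (ℝ × ℝ)) = (volume : Measure ℝ).prod volume from rfl,
      ← Measure.prod_restrict]
    rw [lintegral_prod (fun p : ℝ × ℝ ↦ ((((1 / ‖p.2‖₊) ^ 2 : ℝ≥0)) : ℝ≥0∞)) (by fun_prop)]
    simp only [lintegral_const, Measure.restrict_apply MeasurableSet.univ, Set.univ_inter,
      Real.volume_Icc]
    refine ENNReal.mul_ne_top ?_ ENNReal.ofReal_ne_top
    have h := integrableOn_Ioi_rpow_of_lt (show (-2 : ℝ) < -1 by norm_num)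
      (show (0 : ℝ) < 1 / 4 by norm_num)
    refine ne_top_of_le_ne_top h.2.ne (setLIntegral_mono' measurableSet_Ioi fun y hy ↦ le_of_eq ?_)
    have hy0 : (0 : ℝ) < y := lt_trans (by norm_num) (Set.mem_Ioi.1 hy)
    rw [enorm_eq_nnnorm]
    congr 1
    ext
    simp [abs_of_pos hy0, Real.rpow_neg hy0.le]
  · rintro _ ⟨z, hz, rfl⟩
    have h1 := abs_le.1 hz.2
    have h2 := ModularGroup.three_le_four_mul_im_sq_of_mem_fd hz
    have h3 := z.im_pos
    refine ⟨⟨?_, ?_⟩, ?_⟩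
    · exact le_trans (by norm_num) h1.1
    · exact le_trans h1.2 (by norm_num)
    · show (1 / 4 : ℝ) < z.im
      nlinarith

theorem lintegral_weight₁_ne_top : ∫⁻ z, weight₁ z ≠ ⊤ := by
  refine ne_top_of_le_ne_top lintegral_indicator_fd_ne_top (lintegral_mono fun z ↦ ?_)
  by_cases hz : z ∈ (𝒟 : Set ℍ)
  · have h1 : (1 : ℝ≥0∞) ≤ orbitCount z := by
      calc (1 : ℝ≥0∞) = Set.indicator (𝒟 : Set ℍ) (fun _ ↦ (1 : ℝ≥0∞)) ((1 : SL(2, ℤ)) • z) := by
            simp [hz]
        _ ≤ orbitCount z := ENNReal.le_tsum _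
    simp only [weight₁, Set.indicator_of_mem hz, one_div]
    exact ENNReal.inv_le_one.2 h1
  · simp [weight₁, Set.indicator_of_notMem hz]

variable (Γ : Subgroup SL(2, ℤ))

theorem out_mul_bijective :
    Function.Bijective fun p : (SL(2, ℤ) ⧸ Γ) × Γ ↦ p.1.out * (p.2 : SL(2, ℤ)) := by
  constructor
  · rintro ⟨q, γ⟩ ⟨q', γ'⟩ h
    simp only at h
    have hq : q = q' := by
      rw [← q.out_eq, ← q'.out_eq]
      refine QuotientGroup.eq.2 ?_
      rw [show q.out⁻¹ * q'.out = (γ : SL(2, ℤ)) * (γ' : SL(2, ℤ))⁻¹ from by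
        rw [eq_mul_inv_iff_mul_eq, mul_assoc, ← h, inv_mul_cancel_left]]
      exact mul_mem γ.2 (inv_mem γ'.2)
    subst hq
    exact Prod.ext rfl (Subtype.ext (mul_left_cancel h))
  · intro g
    refine ⟨(QuotientGroup.mk g, ⟨(QuotientGroup.mk (s := Γ) g).out⁻¹ * g, ?_⟩), by simp⟩
    exact QuotientGroup.eq.1 (Quotient.out_eq' (QuotientGroup.mk (s := Γ) g))

/-- The weight for `Γ`. -/
def weight (z : ℍ) : ℝ≥0∞ := ∑' q : SL(2, ℤ) ⧸ Γ, weight₁ (q.out • z)

theorem measurable_weight : Measurable (weight Γ) :=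
  Measurable.tsum fun _ ↦ measurable_weight₁.comp (measurable_smul_sl _)

theorem tsum_weight (z : ℍ) : ∑' γ : Γ, weight Γ ((γ : SL(2, ℤ)) • z) = 1 := by
  simp only [weight, ← mul_smul]
  rw [ENNReal.tsum_comm, ← ENNReal.tsum_prod]
  refine Eq.trans ?_ (tsum_weight₁ z)
  refine Eq.trans ?_ ((Equiv.ofBijective _ (out_mul_bijective Γ)).tsum_eq
    (fun g ↦ weight₁ (g • z)))
  rfl

theorem weight_le_one (z : ℍ) : weight Γ z ≤ 1 := by
  calc weight Γ z = weight Γ (((1 : Γ) : SL(2, ℤ)) • z) := by simp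
    _ ≤ _ := ENNReal.le_tsum (f := fun γ : Γ ↦ weight Γ ((γ : SL(2, ℤ)) • z)) 1
    _ = 1 := tsum_weight Γ z

theorem lintegral_comp_smul (g : GL (Fin 2) ℝ) {F : ℍ → ℝ≥0∞} (hF : Measurable F) :
    ∫⁻ z, F (g • z) = ∫⁻ z, F z :=
  (measurePreserving_smul g (volume : Measure ℍ)).lintegral_comp hF

theorem integral_comp_smul {E : Type*} [NormedAddCommGroup E] [NormedSpace ℝ E]
    (g : GL (Fin 2) ℝ) (F : ℍ → E) : ∫ z, F (g • z) = ∫ z, F z :=
  (measurePreserving_smul g (volume : Measure ℍ)).integral_comp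
    (measurableEmbedding_const_smul g) F

theorem lintegral_weight_ne_top [Γ.FiniteIndex] : ∫⁻ z, weight Γ z ≠ ⊤ := by
  have := Fintype.ofFinite (SL(2, ℤ) ⧸ Γ)
  simp only [weight, tsum_fintype]
  rw [lintegral_finsetSum]
  · refine ENNReal.sum_ne_top.2 fun q _ ↦ ?_
    simp only [smul_eq_mapGL]
    rw [lintegral_comp_smul _ measurable_weight₁]
    exact lintegral_weight₁_ne_top
  · exact fun q _ ↦ measurable_weight₁.comp (measurable_smul_sl _)

theorem integrable_weight [Γ.FiniteIndex] : Integrable fun z ↦ (weight Γ z).toReal :=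
  integrable_toReal_of_lintegral_ne_top (measurable_weight Γ).aemeasurable
    (lintegral_weight_ne_top Γ)

end FermatAgent.RTLift.Petersson
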