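import Mathlib
import Fermat.Agent.RTLift.Petersson.Weight

/-!
# The Petersson product on cusp forms for `Γ₀(N)`
-/

set_option autoImplicit false
set_option linter.unusedSectionVars false

noncomputable section

open scoped MatrixGroups ENNReal NNReal ComplexConjugate ModularForm
open UpperHalfPlane MeasureTheory CongruenceSubgroup

namespace FermatAgent.RTLift.Petersson

/-- An integer matrix of nonzero determinant as an element of `GL(2, ℝ)`. -/
def toGL (M : Matrix (Fin 2) (Fin 2) ℤ) (h : M.det ≠ 0) : GL (Fin 2) ℝ :=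
  Matrix.GeneralLinearGroup.mkOfDetNeZero (M.map (Int.castRingHom ℝ)) (by
    rw [← RingHom.mapMatrix_apply, ← RingHom.map_det]
    exact (map_ne_zero_iff _ (Int.cast_injective (α := ℝ))).2 h)

variable {N : ℕ} [NeZero N] {k : ℤ}

theorem exists_petersson_le (f g : CuspForm (Gamma0 N) k) :
    ∃ C, ∀ z, ‖petersson k f g z‖ ≤ C :=
  CuspFormClass.petersson_bounded_left k (Gamma0 N : Subgroup (GL (Fin 2) ℝ)) f g

theorem norm_petersson_mul_self (k : ℤ) (f g : ℍ → ℂ) (z : ℍ) :
    ‖petersson k f g z‖ * ‖petersson k f g z‖ =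
      ‖petersson k f f z‖ * ‖petersson k g g z‖ := by
  simp only [petersson, norm_mul, Complex.norm_conj]
  ring

theorem continuous_slash (f : CuspForm (Gamma0 N) k) (α : GL (Fin 2) ℝ) :
    Continuous ((⇑f) ∣[k] α) :=
  ((CuspFormClass.holo f).slash k α).continuous

theorem exists_petersson_slash_le (f g : CuspForm (Gamma0 N) k) (d : ℝ) :
    ∃ C, 0 ≤ C ∧ ∀ α : GL (Fin 2) ℝ, |α.det.val| = d → ∀ z,
      ‖petersson k ((⇑f) ∣[k] α) g z‖ ≤ C := by
  obtain ⟨A, hA⟩ := exists_petersson_le f f
  obtain ⟨B, hB⟩ := exists_petersson_le g g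
  refine ⟨√(|d| ^ (k - 2) * |A| * |B|), Real.sqrt_nonneg _, fun α hα z ↦
    Real.le_sqrt_of_sq_le ?_⟩
  rw [sq, norm_petersson_mul_self, petersson_slash, norm_mul, norm_zpow, Complex.norm_real,
    Real.norm_eq_abs, hα, norm_σ]
  gcongr
  · exact (hA _).trans (le_abs_self A)
  · exact (hB _).trans (le_abs_self B)

variable (N) in
/-- The real valued weight for `Γ₀(N)`. -/
def wt (z : ℍ) : ℝ := (weight (Gamma0 N) z).toReal

theorem wt_nonneg (z : ℍ) : 0 ≤ wt N z := ENNReal.toReal_nonneg

theorem measurable_wt : Measurable (wt N) := (measurable_weight _).ennreal_toReal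

theorem integrable_wt : Integrable (wt N) := integrable_weight _

theorem weight_ne_top (z : ℍ) : weight (Gamma0 N) z ≠ ⊤ :=
  ne_top_of_le_ne_top ENNReal.one_ne_top (weight_le_one _ z)

theorem hasSum_wt (z : ℍ) : HasSum (fun γ : Gamma0 N ↦ wt N ((γ : SL(2, ℤ)) • z)) 1 := by
  have h := ENNReal.hasSum_toReal (f := fun γ : Gamma0 N ↦ weight (Gamma0 N) ((γ : SL(2, ℤ)) • z))
    (ne_of_eq_of_ne (tsum_weight _ z) ENNReal.one_ne_top)
  rwa [← ENNReal.tsum_toReal_eq (fun γ ↦ weight_ne_top _), tsum_weight, ENNReal.toReal_one] at h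

theorem integrable_wt_mul {F : ℍ → ℂ} (hF : Continuous F) {C : ℝ} (hC : ∀ z, ‖F z‖ ≤ C) :
    Integrable fun z ↦ (wt N z : ℂ) * F z :=
  (integrable_wt (N := N)).ofReal.mul_bdd hF.aestronglyMeasurable (Filter.Eventually.of_forall hC)

/-- The Petersson product. -/
def inner₂ (f g : CuspForm (Gamma0 N) k) : ℂ := ∫ z, (wt N z : ℂ) * petersson k f g z

theorem integrable_inner₂ (f g : CuspForm (Gamma0 N) k) :
    Integrable fun z ↦ (wt N z : ℂ) * petersson k f g z := by
  obtain ⟨C, hC⟩ := exists_petersson_le f g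
  exact integrable_wt_mul (petersson_continuous k (CuspFormClass.holo f).continuous
    (CuspFormClass.holo g).continuous) hC

theorem inner₂_conj (f g : CuspForm (Gamma0 N) k) : conj (inner₂ g f) = inner₂ f g := by
  rw [inner₂, inner₂, ← integral_conj]
  refine integral_congr_ae (.of_forall fun z ↦ ?_)
  simp only [map_mul, Complex.conj_ofReal, ← petersson_symm]

theorem inner₂_add_left (f g h : CuspForm (Gamma0 N) k) :
    inner₂ (f + g) h = inner₂ f h + inner₂ g h := by
  rw [inner₂, inner₂, inner₂, ← integral_add (integrable_inner₂ f h) (integrable_inner₂ g h)]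
  refine integral_congr_ae (.of_forall fun z ↦ ?_)
  simp only [petersson, FunLike.coe_add, Pi.add_apply, map_add]
  ring

theorem inner₂_smul_left (c : ℂ) (f h : CuspForm (Gamma0 N) k) :
    inner₂ (c • f) h = conj c * inner₂ f h := by
  rw [inner₂, inner₂, ← integral_const_mul]
  refine integral_congr_ae (.of_forall fun z ↦ ?_)
  simp only [petersson, FunLike.coe_smul, Pi.smul_apply, smul_eq_mul, map_mul]
  ring

theorem re_petersson_self (k : ℤ) (f : ℍ → ℂ) (z : ℍ) :
    petersson k f f z = ((Complex.normSq (f z) * z.im ^ k : ℝ) : ℂ) := by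
  simp [petersson, Complex.normSq_eq_conj_mul_self]

theorem inner₂_self (f : CuspForm (Gamma0 N) k) :
    inner₂ f f = ((∫ z, wt N z * (Complex.normSq (f z) * z.im ^ k) : ℝ) : ℂ) := by
  rw [inner₂, ← integral_complex_ofReal]
  refine integral_congr_ae (.of_forall fun z ↦ ?_)
  simp only [re_petersson_self, Complex.ofReal_mul]

theorem eq_zero_of_ae {F : ℍ → ℝ} (hF : Continuous F) (h : F =ᵐ[volume] 0) : F = 0 := by
  by_contra hne
  have hU : IsOpen {z | F z ≠ 0} := isOpen_ne_fun hF continuous_const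
  have h0 : volume {z | F z ≠ 0} = 0 := h
  rw [volume_eq_lintegral] at h0
  have hopen : IsOpen ((↑) '' {z | F z ≠ 0} : Set ℂ) :=
    UpperHalfPlane.isOpenEmbedding_coe.isOpenMap _ hU
  rw [setLIntegral_eq_zero_iff hopen.measurableSet (by fun_prop)] at h0
  have hne' : ((↑) '' {z | F z ≠ 0} : Set ℂ).Nonempty := by
    obtain ⟨z, hz⟩ := Function.ne_iff.1 hne
    exact ⟨z, z, by simpa using hz, rfl⟩
  refine (hopen.measure_pos volume hne').ne' (measure_eq_zero_iff_ae_notMem.2 ?_)
  filter_upwards [h0] with w hw hmem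
  have hw' := hw hmem
  obtain ⟨z, -, rfl⟩ := hmem
  simp [z.im_ne_zero] at hw'

theorem eq_zero_of_inner₂_self (f : CuspForm (Gamma0 N) k) (h : inner₂ f f = 0) : f = 0 := by
  set P : ℍ → ℝ := fun z ↦ Complex.normSq (f z) * z.im ^ k with hP
  have hPc : Continuous P := by
    have := (CuspFormClass.holo f).continuous
    exact (Complex.continuous_normSq.comp this).mul
      (UpperHalfPlane.continuous_im.zpow₀ k fun z ↦ Or.inl z.im_ne_zero)
  have hinv : ∀ (γ : Gamma0 N) (z : ℍ), P ((γ : SL(2, ℤ)) • z) = P z := by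
    intro γ z
    apply Complex.ofReal_injective
    rw [hP, ← re_petersson_self, ← re_petersson_self]
    exact SlashInvariantFormClass.petersson_smul (Γ := (Gamma0 N : Subgroup (GL (Fin 2) ℝ)))
      (f := f) (f' := f) ⟨γ, γ.2, rfl⟩
  rw [inner₂_self, Complex.ofReal_eq_zero] at h
  have hint : Integrable fun z ↦ wt N z * P z := by
    have := (integrable_inner₂ f f).re
    refine this.congr (.of_forall fun z ↦ ?_)
    simp only [re_petersson_self, ← Complex.ofReal_mul, hP]
    exact Complex.ofReal_re _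
  have h0 := (integral_eq_zero_iff_of_nonneg (fun z ↦ mul_nonneg (wt_nonneg z)
    (mul_nonneg (Complex.normSq_nonneg _) (zpow_nonneg z.im_pos.le k))) hint).1 h
  have hae : ∀ᵐ z : ℍ, ∀ γ : Gamma0 N, wt N ((γ : SL(2, ℤ)) • z) * P z = 0 := by
    rw [ae_all_iff]
    intro γ
    have := (measurePreserving_smul (Matrix.SpecialLinearGroup.mapGL ℝ (γ : SL(2, ℤ)))
      (volume : Measure ℍ)).quasiMeasurePreserving.ae h0
    filter_upwards [this] with z hz
    rw [← hinv γ z]
    exact hz
  have hP0 : P =ᵐ[volume] 0 := by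
    filter_upwards [hae] with z hz
    have := (hasSum_wt (N := N) z).mul_right (P z)
    simp only [hz, one_mul] at this
    exact (hasSum_zero.unique this).symm
  have := eq_zero_of_ae hPc hP0
  ext z
  have hz := congrFun this z
  simp only [hP, Pi.zero_apply, mul_eq_zero, Complex.normSq_eq_zero,
    zpow_ne_zero k z.im_ne_zero, or_false] at hz
  exact hz

end FermatAgent.RTLift.Petersson
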