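import Mathlib
import Fermat.Agent.Periods.HeckeHom
import Fermat.Agent.RTLift.Petersson.Inner
import Fermat.Prelude.Def_ModularForm_HeckeOperatorForms

/-!
# `T_p` is self-adjoint for the Petersson product
-/

set_option autoImplicit false
set_option linter.unusedSectionVars false

noncomputable section

open scoped MatrixGroups ENNReal NNReal ComplexConjugate ModularForm
open UpperHalfPlane MeasureTheory CongruenceSubgroup

namespace FermatAgent.RTLift.Petersson

open FermatAgent.Periods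

variable {N : ℕ} [NeZero N] {k : ℤ} {p : ℕ}

variable (N p) in
/-- Integer matrices of determinant `p` with lower left entry divisible by `N`. -/
abbrev DetSet : Type :=
  {M : Matrix (Fin 2) (Fin 2) ℤ // M.det = (p : ℤ) ∧ (N : ℤ) ∣ M 1 0}

instance : Countable (DetSet N p) := by
  have : Countable (Matrix (Fin 2) (Fin 2) ℤ) := inferInstanceAs (Countable (Fin 2 → Fin 2 → ℤ))
  exact Subtype.countable

/-- The adjugate is an involution of `DetSet`. -/
def adjEquiv : DetSet N p ≃ DetSet N p :=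
  Function.Involutive.toPerm
    (fun M ↦ ⟨M.1.adjugate, by simpa [Matrix.det_adjugate] using M.2.1, by
      simpa [Matrix.adjugate_fin_two] using M.2.2⟩)
    (fun M ↦ Subtype.ext (by
      have := Matrix.adjugate_adjugate M.1 (by simp)
      simpa using this))

@[simp] theorem adjEquiv_val (M : DetSet N p) : (adjEquiv M).1 = M.1.adjugate := rfl

theorem det_ne [Fact p.Prime] (M : DetSet N p) : M.1.det ≠ 0 := by
  rw [M.2.1]; exact_mod_cast (Fact.out : p.Prime).ne_zero

/-- The element of `GL(2, ℝ)` attached to a member of `DetSet`. -/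
def gl [Fact p.Prime] (M : DetSet N p) : GL (Fin 2) ℝ := toGL M.1 (det_ne M)

theorem det_gl [Fact p.Prime] (M : DetSet N p) : (gl M).det.val = (p : ℝ) := by
  have h : ((M.1.det : ℤ) : ℝ) = (p : ℝ) := by rw [M.2.1]; norm_num
  rw [Matrix.GeneralLinearGroup.val_det_apply]
  refine Eq.trans ?_ h
  show (M.1.map (Int.castRingHom ℝ)).det = _
  rw [← RingHom.mapMatrix_apply, ← RingHom.map_det]
  rfl

/-- Representatives of `T_p` inside `DetSet`. -/
def repD (x : Option (ZMod p)) : DetSet N p :=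
  ⟨tRep p x, det_tRep p x, by rw [tRep_one_zero']; exact dvd_zero _⟩
where
  tRep_one_zero' : tRep p x 1 0 = 0 := by cases x <;> simp [tRep, diagRep, upperRep]

theorem mul_mem_detSet (γ : Gamma0 N) (M : DetSet N p) :
    (((γ : SL(2, ℤ)) : Matrix (Fin 2) (Fin 2) ℤ) * M.1).det = (p : ℤ) ∧
      (N : ℤ) ∣ (((γ : SL(2, ℤ)) : Matrix (Fin 2) (Fin 2) ℤ) * M.1) 1 0 := by
  refine ⟨by rw [Matrix.det_mul, Matrix.SpecialLinearGroup.det_coe, one_mul, M.2.1], ?_⟩
  simp only [Matrix.mul_apply, Fin.sum_univ_two]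
  exact dvd_add (dvd_mul_of_dvd_left
    ((ZMod.intCast_zmod_eq_zero_iff_dvd _ _).mp (Gamma0_mem.mp γ.2)) _)
    (dvd_mul_of_dvd_right M.2.2 _)

/-- `γ, x ↦ γ * rep x`. -/
def cosetMap (a : Option (ZMod p) × Gamma0 N) : DetSet N p :=
  ⟨((a.2 : SL(2, ℤ)) : Matrix (Fin 2) (Fin 2) ℤ) * (repD (N := N) a.1).1, mul_mem_detSet _ _⟩

theorem cosetMap_bijective [Fact p.Prime] (hpN : ¬ p ∣ N) :
    Function.Bijective (cosetMap (N := N) (p := p)) := by
  have hp : p.Prime := Fact.out
  have hp0 : (p : ℤ) ≠ 0 := by exact_mod_cast hp.ne_zero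
  have hcop : IsCoprime (N : ℤ) (p : ℤ) :=
    Int.isCoprime_iff_nat_coprime.2 (by simpa using ((hp.coprime_iff_not_dvd).2 hpN).symm)
  constructor
  · rintro ⟨x, γ⟩ ⟨y, δ⟩ h
    have h' : ((γ : SL(2, ℤ)) : Matrix (Fin 2) (Fin 2) ℤ) * tRep p x =
        ((δ : SL(2, ℤ)) : Matrix (Fin 2) (Fin 2) ℤ) * tRep p y := congrArg Subtype.val h
    have hxy : tRep p x =
        ((((γ : SL(2, ℤ))⁻¹ * δ : SL(2, ℤ))) : Matrix (Fin 2) (Fin 2) ℤ) * tRep p y := by
      rw [Matrix.SpecialLinearGroup.coe_mul, Matrix.mul_assoc, ← h', ← Matrix.mul_assoc,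
        ← Matrix.SpecialLinearGroup.coe_mul, inv_mul_cancel, Matrix.SpecialLinearGroup.coe_one,
        Matrix.one_mul]
    obtain rfl := tRep_sep hp _ x y hxy
    refine Prod.ext rfl (Subtype.ext (Subtype.ext ?_))
    exact matrix_mul_right_cancel (by rw [det_tRep]; exact hp0) h'
  · intro M
    suffices ∃ x : Option (ZMod p), ∀ i j,
        (p : ℤ) ∣ (M.1 * (tRep p x).adjugate) i j by
      obtain ⟨x, hx⟩ := this
      choose g hg using hx
      set G : Matrix (Fin 2) (Fin 2) ℤ := Matrix.of g with hG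
      have h1 : (p : ℤ) • G = M.1 * (tRep p x).adjugate := by
        ext i j; simp [hG, hg]
      have hdet : G.det = 1 := by
        have := congrArg Matrix.det h1
        rw [Matrix.det_smul, Matrix.det_mul, Matrix.det_adjugate, M.2.1, det_tRep,
          Fintype.card_fin] at this
        refine mul_left_cancel₀ (pow_ne_zero 2 hp0) (this.trans ?_)
        ring
      have h2 : G * tRep p x = M.1 := by
        have := congrArg (· * tRep p x) h1
        simp only [Matrix.smul_mul, Matrix.mul_assoc, Matrix.adjugate_mul, det_tRep,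
          Matrix.mul_smul, Matrix.mul_one] at this
        ext i j
        exact mul_left_cancel₀ hp0 (by simpa using congrFun (congrFun this i) j)
      have hN : (N : ℤ) ∣ G 1 0 := by
        refine hcop.dvd_of_dvd_mul_left (?_ : (N : ℤ) ∣ (p : ℤ) * G 1 0)
        have h10 : (p : ℤ) * G 1 0 = (M.1 * (tRep p x).adjugate) 1 0 := by
          rw [← h1]; simp
        rw [h10]
        cases x <;>
          simp [tRep, diagRep, upperRep, Matrix.mul_apply, Fin.sum_univ_two,
            Matrix.adjugate_fin_two, M.2.2, dvd_mul_of_dvd_left M.2.2]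
      exact ⟨⟨x, ⟨⟨G, hdet⟩, Gamma0_mem.mpr
        ((ZMod.intCast_zmod_eq_zero_iff_dvd _ _).mpr hN)⟩⟩, Subtype.ext h2⟩
    have hdet : ((M.1 0 0 : ℤ) : ZMod p) * M.1 1 1 - M.1 0 1 * M.1 1 0 = 0 := by
      have := congrArg (Int.cast : ℤ → ZMod p) (M.2.1)
      simpa [Matrix.det_fin_two] using this
    by_cases hcol : ((M.1 0 0 : ℤ) : ZMod p) = 0 ∧ ((M.1 1 0 : ℤ) : ZMod p) = 0
    · refine ⟨none, fun i j ↦ ?_⟩
      rw [← ZMod.intCast_zmod_eq_zero_iff_dvd]
      fin_cases i <;> fin_cases j <;>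
        simp [tRep, diagRep, Matrix.mul_apply, Fin.sum_univ_two, Matrix.adjugate_fin_two,
          hcol.1, hcol.2]
    · obtain ⟨j₀, e0, e1⟩ : ∃ j : ZMod p, (M.1 0 1 : ZMod p) = j * M.1 0 0 ∧
          (M.1 1 1 : ZMod p) = j * M.1 1 0 := by
        by_cases ha : ((M.1 0 0 : ℤ) : ZMod p) = 0
        · have hc : ((M.1 1 0 : ℤ) : ZMod p) ≠ 0 := fun hc ↦ hcol ⟨ha, hc⟩
          refine ⟨(M.1 1 1 : ZMod p) / M.1 1 0, ?_, by field_simp⟩
          rw [ha] at hdet ⊢
          rw [mul_zero]
          simpa [hc] using hdet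
        · refine ⟨(M.1 0 1 : ZMod p) / M.1 0 0, by field_simp, ?_⟩
          field_simp
          linear_combination hdet
      refine ⟨some j₀, fun i j ↦ ?_⟩
      rw [← ZMod.intCast_zmod_eq_zero_iff_dvd]
      fin_cases i <;> fin_cases j <;>
        simp [tRep, upperRep, Matrix.mul_apply, Fin.sum_univ_two, Matrix.adjugate_fin_two,
          e0, e1] <;> ring

/-- The bijection `(x, γ) ↦ γ * rep x`. -/
def cosetEquiv [Fact p.Prime] (hpN : ¬ p ∣ N) :
    Option (ZMod p) × Gamma0 N ≃ DetSet N p :=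
  Equiv.ofBijective _ (cosetMap_bijective hpN)

theorem gl_cosetMap [Fact p.Prime] (x : Option (ZMod p)) (γ : Gamma0 N) :
    gl (cosetMap (x, γ)) =
      Matrix.SpecialLinearGroup.mapGL ℝ (γ : SL(2, ℤ)) * gl (repD (N := N) x) := by
  apply Units.ext
  show (_ * _ : Matrix (Fin 2) (Fin 2) ℤ).map (Int.castRingHom ℝ) = _
  rw [Matrix.map_mul]
  rfl

theorem heckeT_eq_sum [Fact p.Prime] (f : ℍ → ℂ) :
    ModularForm.heckeT k p f = ∑ x : Option (ZMod p), f ∣[k] gl (repD (N := N) x) := by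
  have hp : p.Prime := Fact.out
  have hd : ModularForm.heckeDiagMatrix p = gl (repD (N := N) none) :=
    Units.ext (heckeDiagMatrix_eq_map hp.ne_zero)
  have hu : ∀ j < p, ModularForm.heckeMatrix p j = gl (repD (N := N) (some (j : ZMod p))) := by
    intro j hj
    refine Units.ext ((heckeMatrix_eq_map hp.ne_zero j).trans ?_)
    show _ = (tRep p (some (j : ZMod p))).map _
    simp [tRep, ZMod.val_natCast, Nat.mod_eq_of_lt hj]
  rw [ModularForm.heckeT_def, Fintype.sum_option, add_comm, hd]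
  congr 1
  refine Finset.sum_bij (fun j _ ↦ (j : ZMod p)) (fun _ _ ↦ Finset.mem_univ _) ?_ ?_ ?_
  · intro a ha b hb hab
    have := congrArg ZMod.val hab
    simpa [ZMod.val_natCast, Nat.mod_eq_of_lt (Finset.mem_range.1 ha),
      Nat.mod_eq_of_lt (Finset.mem_range.1 hb)] using this
  · intro b _
    exact ⟨b.val, Finset.mem_range.2 (ZMod.val_lt b), ZMod.natCast_zmod_val b⟩
  · intro j hj
    rw [hu j (Finset.mem_range.1 hj)]

/-- The summand of `⟨T_p f, g⟩`. -/
def kernelL [Fact p.Prime] (f g : CuspForm (Gamma0 N) k) (M : DetSet N p) (z : ℍ) : ℂ :=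
  (wt N z : ℂ) * ((wt N (gl M • z) : ℂ) * petersson k ((⇑f) ∣[k] gl M) g z)

/-- The summand of `⟨f, T_p g⟩`. -/
def kernelR [Fact p.Prime] (f g : CuspForm (Gamma0 N) k) (M : DetSet N p) (z : ℍ) : ℂ :=
  (wt N z : ℂ) * ((wt N (gl M • z) : ℂ) * petersson k f ((⇑g) ∣[k] gl M) z)

theorem kernelR_eq_conj [Fact p.Prime] (f g : CuspForm (Gamma0 N) k) (M : DetSet N p) (z : ℍ) :
    kernelR f g M z = conj (kernelL g f M z) := by
  simp only [kernelR, kernelL, map_mul, Complex.conj_ofReal, ← petersson_symm]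

theorem slash_cosetMap [Fact p.Prime] (f : CuspForm (Gamma0 N) k) (x : Option (ZMod p))
    (γ : Gamma0 N) :
    (⇑f) ∣[k] gl (cosetMap (x, γ)) = (⇑f) ∣[k] gl (repD (N := N) x) := by
  rw [gl_cosetMap, SlashAction.slash_mul, SlashInvariantFormClass.slash_action_eq f _ (Subgroup.mem_map_of_mem _ γ.2)]

theorem hasSum_wt_rep [Fact p.Prime] (x : Option (ZMod p)) (z : ℍ) :
    HasSum (fun γ : Gamma0 N ↦ wt N (gl (cosetMap (x, γ)) • z)) 1 := by
  simp only [gl_cosetMap, mul_smul]
  exact hasSum_wt _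

theorem summable_mul_fst {ι β : Type*} [Finite ι] {w : ι × β → ℝ} {c : ι → ℝ}
    (hw : ∀ a, 0 ≤ w a) (hc : ∀ x, 0 ≤ c x) (h : ∀ x, Summable fun b ↦ w (x, b)) :
    Summable fun a : ι × β ↦ w a * c a.1 :=
  (summable_prod_of_nonneg fun a ↦ mul_nonneg (hw a) (hc a.1)).2
    ⟨fun x ↦ (h x).mul_right (c x), Summable.of_finite⟩

theorem hasSum_kernelL [Fact p.Prime] (hpN : ¬ p ∣ N) (f g : CuspForm (Gamma0 N) k) (z : ℍ) :
    HasSum (fun M : DetSet N p ↦ kernelL f g M z)
      ((wt N z : ℂ) * petersson k (ModularForm.heckeT k p f) g z) := by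
  rw [← (cosetEquiv (N := N) (p := p) hpN).hasSum_iff]
  have e : (wt N z : ℂ) * petersson k (ModularForm.heckeT k p f) g z =
      ∑ x : Option (ZMod p),
        (wt N z : ℂ) * petersson k ((⇑f) ∣[k] gl (repD (N := N) x)) g z := by
    rw [heckeT_eq_sum (N := N), ← Finset.mul_sum]
    simp only [petersson, Finset.sum_apply, map_sum, Finset.sum_mul]
  have hfib : ∀ x : Option (ZMod p), HasSum
      (fun γ : Gamma0 N ↦ kernelL f g (cosetEquiv hpN (x, γ)) z)
      ((wt N z : ℂ) * petersson k ((⇑f) ∣[k] gl (repD (N := N) x)) g z) := by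
    intro x
    have := ((Complex.hasSum_ofReal.2 (hasSum_wt_rep (N := N) x z)).mul_right
      (petersson k ((⇑f) ∣[k] gl (repD (N := N) x)) g z)).mul_left (wt N z : ℂ)
    rw [Complex.ofReal_one, one_mul] at this
    refine this.congr_fun fun γ ↦ ?_
    simp only [kernelL, cosetEquiv, Equiv.ofBijective_apply, slash_cosetMap]
  have hsum : Summable ((fun M ↦ kernelL f g M z) ∘ cosetEquiv hpN) := by
    refine Summable.of_norm_bounded (g := fun a : Option (ZMod p) × Gamma0 N ↦
      wt N (gl (cosetMap a) • z) *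
        ‖(wt N z : ℂ) * petersson k ((⇑f) ∣[k] gl (repD (N := N) a.1)) g z‖) ?_ ?_
    · exact summable_mul_fst (w := fun a : Option (ZMod p) × Gamma0 N ↦ wt N (gl (cosetMap a) • z))
        (c := fun x ↦ ‖(wt N z : ℂ) * petersson k ((⇑f) ∣[k] gl (repD (N := N) x)) g z‖)
        (fun a ↦ wt_nonneg _) (fun x ↦ norm_nonneg _)
        (fun x ↦ (hasSum_wt_rep (N := N) x z).summable)
    · rintro ⟨x, γ⟩
      simp only [Function.comp_apply, kernelL, cosetEquiv, Equiv.ofBijective_apply, slash_cosetMap,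
        norm_mul, Complex.norm_real, Real.norm_of_nonneg (wt_nonneg _)]
      exact le_of_eq (by ring)
  rw [e]
  have h := hsum.hasSum
  rwa [← (hasSum_fintype _).unique (h.prod_fiberwise hfib)] at h

theorem integrable_kernelL [Fact p.Prime] (f g : CuspForm (Gamma0 N) k) (M : DetSet N p) :
    Integrable (kernelL f g M) := by
  obtain ⟨C, hC0, hC⟩ := exists_petersson_slash_le f g (p : ℝ)
  have hC' := hC (gl M) (by rw [det_gl]; simp)
  refine (integrable_wt (N := N)).ofReal.mul_bdd (c := C) ?_ (.of_forall fun z ↦ ?_)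
  · exact ((Complex.measurable_ofReal.comp
      (measurable_wt.comp (continuous_const_smul (gl M)).measurable)).aestronglyMeasurable).mul
      (petersson_continuous k (continuous_slash f _) (CuspFormClass.holo g).continuous
        ).aestronglyMeasurable
  · rw [norm_mul, Complex.norm_real, Real.norm_of_nonneg (wt_nonneg _)]
    calc wt N (gl M • z) * ‖petersson k ((⇑f) ∣[k] gl M) g z‖ ≤ 1 * C := by
          refine mul_le_mul ?_ (hC' z) (norm_nonneg _) zero_le_one
          exact ENNReal.toReal_le_of_le_ofReal zero_le_one (by simpa using weight_le_one _ _)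
      _ = C := one_mul C

theorem inner₂_heckeT [Fact p.Prime] (hp : p.Prime) (hpN : ¬ p ∣ N)
    (f g : CuspForm (Gamma0 N) k) :
    inner₂ (CuspForm.heckeTLin k hp hpN f) g = ∑' M : DetSet N p, ∫ z, kernelL f g M z := by
  obtain ⟨C, hC0, hC⟩ := exists_petersson_slash_le f g (p : ℝ)
  have hsum : ∑' M : DetSet N p, ∫⁻ z, ‖kernelL f g M z‖ₑ ≠ ⊤ := by
    refine ne_top_of_le_ne_top (b := ∑' M : DetSet N p, ∫⁻ z, ENNReal.ofReal C *
        (weight (Gamma0 N) z * weight (Gamma0 N) (gl M • z))) ?_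
      (ENNReal.tsum_le_tsum fun M ↦ lintegral_mono fun z ↦ ?_)
    · have hmeas : ∀ M : DetSet N p, Measurable fun z : ℍ ↦ ENNReal.ofReal C *
          (weight (Gamma0 N) z * weight (Gamma0 N) (gl M • z)) := fun M ↦
        measurable_const.mul ((measurable_weight _).mul
          ((measurable_weight _).comp (continuous_const_smul (gl M)).measurable))
      rw [← lintegral_tsum fun M ↦ (hmeas M).aemeasurable]
      have hpt : ∀ z : ℍ, ∑' M : DetSet N p, ENNReal.ofReal C *
          (weight (Gamma0 N) z * weight (Gamma0 N) (gl M • z)) =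
          ENNReal.ofReal C * (Fintype.card (Option (ZMod p)) : ℝ≥0∞) * weight (Gamma0 N) z := by
        intro z
        rw [ENNReal.tsum_mul_left, ENNReal.tsum_mul_left, mul_assoc, mul_comm _ (weight _ z)]
        congr 2
        rw [← (cosetEquiv (N := N) (p := p) hpN).tsum_eq
          (fun M ↦ weight (Gamma0 N) (gl M • z)), ENNReal.tsum_prod']
        have h1 : ∀ x : Option (ZMod p), ∑' γ : Gamma0 N,
            weight (Gamma0 N) (gl (cosetEquiv hpN (x, γ)) • z) = 1 := by
          intro x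
          simp only [cosetEquiv, Equiv.ofBijective_apply, gl_cosetMap, mul_smul]
          exact tsum_weight _ _
        simp [h1]
      rw [lintegral_congr hpt, lintegral_const_mul _ (measurable_weight _)]
      exact ENNReal.mul_ne_top (ENNReal.mul_ne_top ENNReal.ofReal_ne_top (ENNReal.natCast_ne_top _))
        (lintegral_weight_ne_top _)
    · have e : ∀ w, (‖(wt N w : ℂ)‖ₑ) = weight (Gamma0 N) w := fun w ↦ by
        rw [← ofReal_norm, Complex.norm_real, Real.norm_of_nonneg (wt_nonneg _), wt,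
          ENNReal.ofReal_toReal (weight_ne_top _)]
      rw [kernelL, enorm_mul, enorm_mul, e, e, mul_comm (ENNReal.ofReal C), mul_assoc]
      gcongr
      rw [← ofReal_norm]
      exact ENNReal.ofReal_le_ofReal (hC (gl M) (by rw [det_gl]; simp) z)
  rw [← integral_tsum (fun M ↦ (integrable_kernelL f g M).aestronglyMeasurable) hsum, inner₂]
  refine integral_congr_ae (.of_forall fun z ↦ ?_)
  exact (hasSum_kernelL hpN f g z).tsum_eq.symm

theorem gl_mul_adj [Fact p.Prime] (M : DetSet N p) :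
    ((gl M * gl (adjEquiv M) : GL (Fin 2) ℝ) : Matrix (Fin 2) (Fin 2) ℝ) =
      (p : ℝ) • 1 := by
  show M.1.map (Int.castRingHom ℝ) * M.1.adjugate.map (Int.castRingHom ℝ) = _
  rw [← Matrix.map_mul, Matrix.mul_adjugate, M.2.1]
  ext i j
  fin_cases i <;> fin_cases j <;> simp [Matrix.natCast_apply]

theorem smul_gl_adj [Fact p.Prime] (M : DetSet N p) (w : ℍ) :
    gl M • gl (adjEquiv M) • w = w := by
  have hp : (0 : ℝ) < p := by exact_mod_cast (Fact.out : p.Prime).pos
  rw [← mul_smul]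
  apply UpperHalfPlane.ext
  have hdet : 0 < ((gl M * gl (adjEquiv M)).det.val : ℝ) := by
    rw [map_mul, Units.val_mul, det_gl, det_gl]; positivity
  rw [UpperHalfPlane.coe_smul_of_det_pos hdet]
  simp only [UpperHalfPlane.num, UpperHalfPlane.denom, gl_mul_adj]
  have hp0 : (p : ℂ) ≠ 0 := by exact_mod_cast (Fact.out : p.Prime).ne_zero
  simp [mul_comm (p : ℂ), hp0]

theorem slash_gl_adj [Fact p.Prime] (f : ℍ → ℂ) (M : DetSet N p) :
    (f ∣[k] gl M) ∣[k] gl (adjEquiv M) = ((p : ℂ) ^ (k - 2)) • f := by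
  have hp0 : (p : ℂ) ≠ 0 := by exact_mod_cast (Fact.out : p.Prime).ne_zero
  have hp : (0 : ℝ) < p := by exact_mod_cast (Fact.out : p.Prime).pos
  rw [← SlashAction.slash_mul]
  ext w
  have hdet : ((gl M * gl (adjEquiv M)).det.val : ℝ) = (p : ℝ) * p := by
    rw [map_mul, Units.val_mul, det_gl, det_gl]
  rw [ModularForm.slash_apply, mul_smul, smul_gl_adj]
  have hσ : UpperHalfPlane.σ (gl M * gl (adjEquiv M)) = .refl ℝ ℂ := by
    rw [UpperHalfPlane.σ, if_pos]
    rw [hdet]; positivity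
  have hden : UpperHalfPlane.denom (gl M * gl (adjEquiv M)) w = (p : ℂ) := by
    simp only [UpperHalfPlane.denom, gl_mul_adj]
    simp
  rw [hσ, hden, hdet, abs_of_pos (by positivity), Pi.smul_apply, smul_eq_mul]
  simp only [ContinuousAlgEquiv.refl_apply, Complex.ofReal_mul, Complex.ofReal_natCast]
  rw [mul_zpow, ← zpow_add₀ hp0, mul_assoc, ← zpow_add₀ hp0, mul_comm]
  congr 2
  ring

theorem kernelL_adj [Fact p.Prime] (f g : CuspForm (Gamma0 N) k) (M : DetSet N p) (w : ℍ) :
    kernelL f g M (gl (adjEquiv M) • w) = kernelR f g (adjEquiv M) w := by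
  have hp0 : (p : ℂ) ^ (k - 2) ≠ 0 :=
    zpow_ne_zero _ (by exact_mod_cast (Fact.out : p.Prime).ne_zero)
  have h := petersson_slash k ((⇑f) ∣[k] gl M) g (gl (adjEquiv M)) w
  rw [slash_gl_adj, det_gl] at h
  have hσ : UpperHalfPlane.σ (gl (adjEquiv M)) = .refl ℝ ℂ := by
    rw [UpperHalfPlane.σ, if_pos]
    rw [det_gl]; exact_mod_cast (Fact.out : p.Prime).pos
  rw [hσ] at h
  simp only [ContinuousAlgEquiv.refl_apply, Nat.abs_cast, Complex.ofReal_natCast] at h
  have h' : petersson k ((⇑f) ∣[k] gl M) g (gl (adjEquiv M) • w) =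
      petersson k f ((⇑g) ∣[k] gl (adjEquiv M)) w := by
    refine mul_left_cancel₀ hp0 (h.symm.trans ?_)
    simp only [petersson, Pi.smul_apply, smul_eq_mul, map_mul, map_zpow₀, Complex.conj_natCast]
    ring
  simp only [kernelL, kernelR, smul_gl_adj, h']
  ring

/-- `T_p` is self-adjoint. -/
theorem inner₂_heckeTLin (hp : p.Prime) (hpN : ¬ p ∣ N) (f g : CuspForm (Gamma0 N) k) :
    inner₂ (CuspForm.heckeTLin k hp hpN f) g = inner₂ f (CuspForm.heckeTLin k hp hpN g) := by
  have : Fact p.Prime := ⟨hp⟩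
  rw [← inner₂_conj f (CuspForm.heckeTLin k hp hpN g), inner₂_heckeT hp hpN,
    inner₂_heckeT hp hpN, Complex.conj_tsum]
  refine Eq.trans (tsum_congr fun M ↦ ?_)
    ((adjEquiv (N := N) (p := p)).tsum_eq (fun M ↦ conj (∫ z, kernelL g f M z)))
  rw [← integral_comp_smul (gl (adjEquiv M)) (kernelL f g M), ← integral_conj]
  refine integral_congr_ae (.of_forall fun w ↦ ?_)
  simp only [kernelL_adj, kernelR_eq_conj]

end FermatAgent.RTLift.Petersson
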