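import Mathlib
import Fermat.Agent.RTLift.Petersson.Hecke
import Fermat.Prelude.Def_CuspForm_HeckeAlgebra

/-!
# Reducedness of the Hecke algebra away from the level

The Hecke algebra away from the level is self-adjoint for the Petersson product, hence reduced.
-/

set_option autoImplicit false
set_option linter.unusedSectionVars false

noncomputable section

open scoped MatrixGroups ComplexConjugate
open CongruenceSubgroup Module

namespace FermatAgent.RTLift.Petersson

variable {N : ℕ} [NeZero N] {k : ℤ}

/-- Self-adjointness for the Petersson product. -/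
def IsSelfAdjointPet (t : Module.End ℂ (CuspForm (Gamma0 N) k)) : Prop :=
  ∀ f g, inner₂ (t f) g = inner₂ f (t g)

theorem inner₂_add_right (f g h : CuspForm (Gamma0 N) k) :
    inner₂ f (g + h) = inner₂ f g + inner₂ f h := by
  rw [← inner₂_conj, inner₂_add_left, map_add, inner₂_conj, inner₂_conj]

theorem inner₂_smul_right (c : ℂ) (f h : CuspForm (Gamma0 N) k) :
    inner₂ f (c • h) = c * inner₂ f h := by
  rw [← inner₂_conj, inner₂_smul_left, map_mul, Complex.conj_conj, inner₂_conj]

theorem inner₂_zero_right (f : CuspForm (Gamma0 N) k) : inner₂ f 0 = 0 := by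
  simpa using inner₂_smul_right 0 f f

theorem IsSelfAdjointPet.commute_mul {s t : Module.End ℂ (CuspForm (Gamma0 N) k)}
    (hs : IsSelfAdjointPet s) (ht : IsSelfAdjointPet t) (h : Commute s t) :
    IsSelfAdjointPet (s * t) := fun f g ↦ by
  rw [show (s * t) g = (t * s) g from LinearMap.congr_fun h g, Module.End.mul_apply,
    Module.End.mul_apply, hs, ht]

/-- Every element of the Hecke algebra away from the level is self-adjoint. -/
theorem isSelfAdjointPet_heckeAlgebra {S : Set ℕ} (hS : ∀ q : ℕ, q.Prime → q ∣ N → q ∈ S)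
    {t : Module.End ℂ (CuspForm (Gamma0 N) k)} (ht : t ∈ CuspForm.heckeAlgebra N k S) :
    IsSelfAdjointPet t := by
  induction ht using Algebra.adjoin_induction with
  | mem T hT =>
    rcases hT with ⟨ℓ, hℓ, hℓN, -, rfl⟩ | ⟨q, hqN, hq, hqS, rfl⟩
    · exact inner₂_heckeTLin hℓ hℓN
    · exact absurd (hS q hq hqN) hqS
  | algebraMap r =>
    intro f g
    simp only [Module.algebraMap_end_apply, ← Int.cast_smul_eq_zsmul ℂ, inner₂_smul_left,
      inner₂_smul_right, map_intCast]
  | add x y _ _ hx hy =>
    intro f g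
    simp only [LinearMap.add_apply, inner₂_add_left, inner₂_add_right, hx f g, hy f g]
  | mul x y hx' hy' hx hy =>
    refine hx.commute_mul hy ?_
    exact congrArg Subtype.val
      (mul_comm (⟨x, hx'⟩ : CuspForm.heckeAlgebra N k S) ⟨y, hy'⟩)

theorem IsSelfAdjointPet.eq_zero_of_sq {t : Module.End ℂ (CuspForm (Gamma0 N) k)}
    (ht : IsSelfAdjointPet t) (h : t * t = 0) : t = 0 := by
  ext1 f
  refine eq_zero_of_inner₂_self _ ?_
  rw [ht, show t (t f) = 0 from LinearMap.congr_fun h f, inner₂_zero_right]

/-- The Hecke algebra away from the level is reduced. -/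
theorem isReduced_heckeAlgebra {S : Set ℕ} (hS : ∀ q : ℕ, q.Prime → q ∣ N → q ∈ S) :
    IsReduced (CuspForm.heckeAlgebra N k S) := by
  refine (isReduced_iff_pow_one_lt 2 one_lt_two).2 fun x hx ↦ Subtype.ext ?_
  refine IsSelfAdjointPet.eq_zero_of_sq (isSelfAdjointPet_heckeAlgebra hS x.2) ?_
  simpa [sq] using congrArg Subtype.val hx

end FermatAgent.RTLift.Petersson
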